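import Fermat.Agent.CFT.Tate.DimShift

/-!
# SKELETON (WIP, contains `sorry`; never import from a final file)

Exact statements of the nodes of the finite-group Tate package (helper6).
`TateZeroTrivial`, `TateNegOneTrivial`, `IsCoinducedRep`, `upSES`, `δ_comp_map` are in the landed
files `Induced.lean`, `DimShift.lean`.
-/

open CategoryTheory Limits groupCohomology Rep

namespace Fermat.Agent.CFT.Skel

universe u

variable {k G : Type u} [CommRing k] [Group G]

/-! ## T-COR (helper4): corestriction and Sylow detection -/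

/-- corestriction exists with `cores ∘ res = index` -/
theorem exists_cores (A : Rep k G) (H : Subgroup G) [H.FiniteIndex] (n : ℕ) :
    ∃ cor : groupCohomology (res H.subtype A) n ⟶ groupCohomology A n,
      groupCohomology.map H.subtype (𝟙 (res H.subtype A)) n ≫ cor =
        (H.index : k) • 𝟙 (groupCohomology A n) := sorry

theorem isZero_groupCohomology_of_sylow [Finite G] (A : Rep k G) (n : ℕ)
    (h : ∀ (p : ℕ) [Fact p.Prime] (P : Sylow p G),
      IsZero (groupCohomology (res (P : Subgroup G).subtype A) (n + 1))) :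
    IsZero (groupCohomology A (n + 1)) := sorry

theorem tateZeroTrivial_of_sylow [Finite G] (A : Rep k G)
    (h : ∀ (p : ℕ) [Fact p.Prime] (P : Sylow p G),
      TateZeroTrivial (res (P : Subgroup G).subtype A)) :
    TateZeroTrivial A := sorry

theorem tateNegOneTrivial_of_sylow [Finite G] (A : Rep k G)
    (h : ∀ (p : ℕ) [Fact p.Prime] (P : Sylow p G),
      TateNegOneTrivial (res (P : Subgroup G).subtype A)) :
    TateNegOneTrivial A := sorry

/-! ## T-INF: higher inflation-restriction -/

/-- the inflation map `Hⁿ(G ⧸ S, A^S) ⟶ Hⁿ(G, A)` (Mathlib: `(infNatTrans k S n).app A`) -/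
noncomputable abbrev infl (A : Rep k G) (S : Subgroup G) [S.Normal] (n : ℕ) :
    groupCohomology (A.quotientToInvariants S) n ⟶ groupCohomology A n :=
  groupCohomology.map (QuotientGroup.mk' S) (ofHom (A.ρ.quotientToInvariants_lift S)) n

/-- the restriction map `Hⁿ(G, A) ⟶ Hⁿ(S, A)` -/
noncomputable abbrev rest (A : Rep k G) (S : Subgroup G) (n : ℕ) :
    groupCohomology A n ⟶ groupCohomology (res S.subtype A) n :=
  groupCohomology.map S.subtype (𝟙 (res S.subtype A)) n

theorem infl_comp_rest (A : Rep k G) (S : Subgroup G) [S.Normal] (n : ℕ) :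
    infl A S (n + 1) ≫ rest A S (n + 1) = 0 := sorry

theorem mono_infl (A : Rep k G) (S : Subgroup G) [S.Normal] (n : ℕ)
    (hA : ∀ i, i < n → IsZero (groupCohomology (res S.subtype A) (i + 1))) :
    Mono (infl A S (n + 1)) := sorry

theorem infl_rest_exact (A : Rep k G) (S : Subgroup G) [S.Normal] (n : ℕ)
    (hA : ∀ i, i < n → IsZero (groupCohomology (res S.subtype A) (i + 1))) :
    (ShortComplex.mk (infl A S (n + 1)) (rest A S (n + 1)) (infl_comp_rest A S n)).Exact := sorry

/-! ## T-CRIT (helper6): criterion for cohomological triviality -/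

theorem cohTriv_of_H1_H2 [Finite G] (A : Rep k G)
    (h1 : ∀ H : Subgroup G, IsZero (groupCohomology (res H.subtype A) 1))
    (h2 : ∀ H : Subgroup G, IsZero (groupCohomology (res H.subtype A) 2)) (H : Subgroup G) :
    (∀ n : ℕ, IsZero (groupCohomology (res H.subtype A) (n + 1))) ∧
      TateZeroTrivial (res H.subtype A) ∧ TateNegOneTrivial (res H.subtype A) := sorry

end Fermat.Agent.CFT.Skel

/-! ## T-SPLIT (helper28): Tate's theorem, `k = ℤ`, universe 0 -/

namespace Fermat.Agent.CFT.Skel

variable {G : Type} [Group G] [Finite G] (C : Rep ℤ G)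

/-- `H³ = 0` for class modules. -/
theorem tate_isZero_H3
    (h1 : ∀ H : Subgroup G, IsZero (groupCohomology (res H.subtype C) 1))
    (h2 : ∀ H : Subgroup G, ∃ u : groupCohomology (res H.subtype C) 2,
      addOrderOf u = Nat.card H ∧ ∀ x, x ∈ AddSubgroup.zmultiples u)
    (H : Subgroup G) : IsZero (groupCohomology (res H.subtype C) 3) := sorry

/-- the norm as an additive hom (finsum form, no `Fintype` instance needed) -/
noncomputable def normAddHom : C.V →+ C.V where
  toFun b := ∑ᶠ g : G, C.ρ g b
  map_zero' := by simp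
  map_add' a b := by
    simp only [map_add]
    exact finsum_add_distrib (Set.toFinite _) (Set.toFinite _)

/-- Nakayama's reciprocity isomorphism `G^ab ≅ C^G / N_G C`, `σ ↦ ∑_τ φ(τ, σ)`. -/
theorem nakayama_bijective
    (h1 : ∀ H : Subgroup G, IsZero (groupCohomology (res H.subtype C) 1))
    (h2 : ∀ H : Subgroup G, ∃ u : groupCohomology (res H.subtype C) 2,
      addOrderOf u = Nat.card H ∧ ∀ x, x ∈ AddSubgroup.zmultiples u)
    (φ : cocycles₂ C) (hφ : ∀ x : H2 C, x ∈ AddSubgroup.zmultiples (H2π C φ)) :
    ∃ f : Additive (Abelianization G) →+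
        (C.V ⧸ (normAddHom C).range),
      (∀ σ : G, f (Additive.ofMul (Abelianization.of σ)) =
        QuotientAddGroup.mk (∑ᶠ τ : G, φ (τ, σ))) ∧
      Function.Injective f ∧
      (∀ c : C, (∀ g, C.ρ g c = c) → ∃ x, f x = QuotientAddGroup.mk c) := sorry

end Fermat.Agent.CFT.Skel
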